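/-
T1-D (descent ℂ → ℚ̄, part 1): the base change `laurentBaseChange k F₀ ⊂ k((q))` of a field
`F₀ ⊂ ℚ((q))` as the field of fractions of the `k`-span of `F₀`:
* `tdxLin F₀ R w = ∑ i, w i • emb (b i)` for a fixed `ℚ`-basis `b` of `F₀` and `w : I →₀ R`;
* functoriality in the coefficient ring, linear independence over fields;
* every element of the base change is a quotient of two such sums;
* membership descends along field extensions (`tdx_mem_of_coeffMap_mem`).
-/
import Mathlib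
import Fermat.Prelude.Def_ModularCurve_LaurentCoeff

set_option autoImplicit false
set_option linter.unusedSectionVars false

open HahnSeries ModularCurve

noncomputable section

namespace Fermat.Agent.T1

variable (F₀ : IntermediateField ℚ (LaurentSeries ℚ))

/-- the index type of a `ℚ`-basis of `F₀` -/
abbrev TdxI : Type := ↥(Module.Basis.ofVectorSpaceIndex ℚ ↥F₀)

/-- a `ℚ`-basis of `F₀` -/
def tdxB : Module.Basis (TdxI F₀) ℚ ↥F₀ := Module.Basis.ofVectorSpace ℚ ↥F₀

/-- the basis elements as Laurent series -/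
def tdxE (i : TdxI F₀) : LaurentSeries ℚ := ((tdxB F₀ i : ↥F₀) : LaurentSeries ℚ)

section Ring

variable (R : Type*) [CommRing R] [Algebra ℚ R]

/-- the coefficientwise embedding `ℚ((q)) → R((q))` -/
def tdxEmb : LaurentSeries ℚ →+* LaurentSeries R := coeffMap (algebraMap ℚ R)

@[simp] theorem tdxEmb_coeff (f : LaurentSeries ℚ) (n : ℤ) :
    (tdxEmb R f).coeff n = algebraMap ℚ R (f.coeff n) := rfl

/-- `w ↦ ∑ i, w i • emb (b i)` -/
def tdxLin : (TdxI F₀ →₀ R) →ₗ[R] LaurentSeries R :=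
  Finsupp.linearCombination R (fun i => tdxEmb R (tdxE F₀ i))

theorem tdxLin_apply (w : TdxI F₀ →₀ R) :
    tdxLin F₀ R w = w.sum fun i r => r • tdxEmb R (tdxE F₀ i) :=
  Finsupp.linearCombination_apply R w

theorem tdxLin_coeff (w : TdxI F₀ →₀ R) (n : ℤ) :
    (tdxLin F₀ R w).coeff n = w.sum fun i r => r * algebraMap ℚ R ((tdxE F₀ i).coeff n) := by
  rw [tdxLin_apply, Finsupp.sum, HahnSeries.coeff_sum, Finsupp.sum]
  refine Finset.sum_congr rfl fun i _ => ?_
  rw [HahnSeries.coeff_smul, tdxEmb_coeff, smul_eq_mul]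

theorem tdxLin_single (i : TdxI F₀) (r : R) :
    tdxLin F₀ R (Finsupp.single i r) = r • tdxEmb R (tdxE F₀ i) := by
  rw [tdxLin, Finsupp.linearCombination_single]

end Ring

section Functorial

variable {R R' : Type*} [CommRing R] [Algebra ℚ R] [CommRing R'] [Algebra ℚ R']

theorem tdx_coeffMap_emb (θ : R →+* R') (f : LaurentSeries ℚ) :
    coeffMap θ (tdxEmb R f) = tdxEmb R' f := by
  rw [tdxEmb, tdxEmb, coeffMap_coeffMap]
  exact coeffMap_congr (RingHom.ext_rat _ _) f

/-- applying an additive map which is compatible with multiplication by rational numbers to the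
coefficients of `tdxLin w` -/
theorem tdxLin_coeff_map (ℓ : R →+ R')
    (hℓ : ∀ (r : R) (c : ℚ), ℓ (r * algebraMap ℚ R c) = ℓ r * algebraMap ℚ R' c)
    (w : TdxI F₀ →₀ R) (n : ℤ) :
    ℓ ((tdxLin F₀ R w).coeff n) = (tdxLin F₀ R' (w.mapRange ℓ (map_zero ℓ))).coeff n := by
  rw [tdxLin_coeff, tdxLin_coeff, Finsupp.sum_mapRange_index (by intro i; rw [zero_mul]),
    Finsupp.sum, map_sum, Finsupp.sum]
  refine Finset.sum_congr rfl fun i _ => ?_
  rw [hℓ]

/-- functoriality in the coefficient ring -/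
theorem tdx_coeffMap_lin (θ : R →+* R') (w : TdxI F₀ →₀ R) :
    coeffMap θ (tdxLin F₀ R w) = tdxLin F₀ R' (w.mapRange θ (map_zero θ)) := by
  ext n
  rw [coeffMap_coeff]
  have h := tdxLin_coeff_map F₀ (θ : R →+ R') (fun r c => by
    show θ (r * algebraMap ℚ R c) = θ r * algebraMap ℚ R' c
    rw [map_mul, ← RingHom.comp_apply, RingHom.ext_rat (θ.comp (algebraMap ℚ R)) (algebraMap ℚ R')])
    w n
  exact h

end Functorial

/-! ### Linear independence -/

theorem tdxEmb_rat (f : LaurentSeries ℚ) : tdxEmb ℚ f = f := by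
  ext n
  rw [tdxEmb_coeff]
  rfl

theorem tdxLin_rat (u : TdxI F₀ →₀ ℚ) :
    tdxLin F₀ ℚ u = ((Finsupp.linearCombination ℚ (tdxB F₀) u : ↥F₀) : LaurentSeries ℚ) := by
  rw [tdxLin_apply, Finsupp.linearCombination_apply, Finsupp.sum, Finsupp.sum,
    AddSubmonoidClass.coe_finsetSum]
  refine Finset.sum_congr rfl fun i _ => ?_
  rw [tdxEmb_rat]
  show u i • tdxE F₀ i = ((u i • tdxB F₀ i : ↥F₀) : LaurentSeries ℚ)
  rw [Rat.smul_def, Rat.smul_def]
  rfl

theorem tdxLin_rat_eq_zero {u : TdxI F₀ →₀ ℚ} (h : tdxLin F₀ ℚ u = 0) : u = 0 := by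
  rw [tdxLin_rat] at h
  have h1 : Finsupp.linearCombination ℚ (tdxB F₀) u = 0 := by
    apply Subtype.ext
    exact h
  exact (linearIndependent_iff.mp (tdxB F₀).linearIndependent) u h1

section Field

variable (k : Type*) [Field k] [Algebra ℚ k]

/-- **linear independence**: a `ℚ`-basis of `F₀` stays linearly independent over `k` in `k((q))` -/
theorem tdxLin_eq_zero {w : TdxI F₀ →₀ k} (h : tdxLin F₀ k w = 0) : w = 0 := by
  ext i
  rw [Finsupp.zero_apply, ← Module.forall_dual_apply_eq_zero_iff ℚ]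
  intro ℓ
  have h1 : tdxLin F₀ ℚ (w.mapRange (ℓ : k →+ ℚ) (map_zero _)) = 0 := by
    ext n
    rw [← tdxLin_coeff_map F₀ (ℓ : k →+ ℚ) (fun r c => by
      show ℓ (r * algebraMap ℚ k c) = ℓ r * algebraMap ℚ ℚ c
      rw [mul_comm r, ← Algebra.smul_def, map_smul, smul_eq_mul, mul_comm]
      rfl) w n, h]
    simp
  have h2 := tdxLin_rat_eq_zero F₀ h1
  have h3 := DFunLike.congr_fun h2 i
  rw [Finsupp.mapRange_apply, Finsupp.zero_apply] at h3
  exact h3

theorem tdxLin_injective : Function.Injective (tdxLin F₀ k) := by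
  rw [← LinearMap.ker_eq_bot, LinearMap.ker_eq_bot']
  intro w hw
  exact tdxLin_eq_zero F₀ k hw

theorem tdxLin_ne_zero {w : TdxI F₀ →₀ k} (hw : w ≠ 0) : tdxLin F₀ k w ≠ 0 :=
  fun h => hw (tdxLin_eq_zero F₀ k h)

/-- the image of an element of `F₀` -/
theorem tdxLin_repr (f : ↥F₀) :
    tdxLin F₀ k (((tdxB F₀).repr f).mapRange (algebraMap ℚ k) (map_zero _))
      = tdxEmb k (f : LaurentSeries ℚ) := by
  have h := tdx_coeffMap_lin F₀ (algebraMap ℚ k) ((tdxB F₀).repr f)
  rw [← h, tdxLin_rat, (tdxB F₀).linearCombination_repr]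
  rfl

/-- the `k`-span of `F₀` in `k((q))` -/
def tdxM : Submodule k (LaurentSeries k) := LinearMap.range (tdxLin F₀ k)

theorem mem_tdxM {x : LaurentSeries k} : x ∈ tdxM F₀ k ↔ ∃ w, tdxLin F₀ k w = x := LinearMap.mem_range

theorem tdxEmb_mem_tdxM (f : ↥F₀) : tdxEmb k (f : LaurentSeries ℚ) ∈ tdxM F₀ k :=
  ⟨_, tdxLin_repr F₀ k f⟩

theorem one_mem_tdxM : (1 : LaurentSeries k) ∈ tdxM F₀ k := by
  have := tdxEmb_mem_tdxM F₀ k 1
  rwa [OneMemClass.coe_one, map_one] at this

theorem tdx_smul_eq (r : k) (x : LaurentSeries k) : r • x = HahnSeries.C r * x :=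
  HahnSeries.C_mul_eq_smul.symm

theorem tdx_algebraMap_eq (a : k) : algebraMap k (LaurentSeries k) a = HahnSeries.C a := by
  rw [algebraMap_laurentSeries_eq_single, HahnSeries.C_apply]

theorem mul_mem_tdxM {x y : LaurentSeries k} (hx : x ∈ tdxM F₀ k) (hy : y ∈ tdxM F₀ k) :
    x * y ∈ tdxM F₀ k := by
  obtain ⟨c, rfl⟩ := hx
  obtain ⟨c', rfl⟩ := hy
  induction c using Finsupp.induction_linear with
  | zero => rw [map_zero, zero_mul]; exact zero_mem _
  | add c₁ c₂ h₁ h₂ => rw [map_add, add_mul]; exact add_mem h₁ h₂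
  | single i r =>
    induction c' using Finsupp.induction_linear with
    | zero => rw [map_zero, mul_zero]; exact zero_mem _
    | add c₁ c₂ h₁ h₂ => rw [map_add, mul_add]; exact add_mem h₁ h₂
    | single i' r' =>
      rw [tdxLin_single, tdxLin_single, tdx_smul_eq, tdx_smul_eq]
      have h : HahnSeries.C r * tdxEmb k (tdxE F₀ i) * (HahnSeries.C r' * tdxEmb k (tdxE F₀ i'))
          = HahnSeries.C (r * r') * tdxEmb k ((tdxB F₀ i * tdxB F₀ i' : ↥F₀) : LaurentSeries ℚ) := by
        rw [map_mul, MulMemClass.coe_mul, map_mul]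
        show _ = HahnSeries.C r * HahnSeries.C r' * (tdxEmb k (tdxE F₀ i) * tdxEmb k (tdxE F₀ i'))
        ring
      rw [h, ← tdx_smul_eq]
      exact Submodule.smul_mem _ _ (tdxEmb_mem_tdxM F₀ k _)

/-- **every element of the base change is a quotient of two elements of the span** -/
theorem tdx_exists_frac {x : LaurentSeries k} (hx : x ∈ laurentBaseChange k F₀) :
    ∃ c d : TdxI F₀ →₀ k, d ≠ 0 ∧ x * tdxLin F₀ k d = tdxLin F₀ k c := by
  suffices h : ∃ a ∈ tdxM F₀ k, ∃ b ∈ tdxM F₀ k, b ≠ 0 ∧ x * b = a by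
    obtain ⟨a, ⟨c, rfl⟩, b, ⟨d, rfl⟩, hb, hab⟩ := h
    refine ⟨c, d, ?_, hab⟩
    rintro rfl
    exact hb (map_zero _)
  rw [mem_laurentBaseChange_iff] at hx
  induction hx using Subfield.closure_induction with
  | mem y hy =>
    rcases hy with ⟨a, rfl⟩ | ⟨f, hf, rfl⟩
    · refine ⟨algebraMap k (LaurentSeries k) a, ?_, 1, one_mem_tdxM F₀ k, one_ne_zero, mul_one _⟩
      rw [tdx_algebraMap_eq, ← mul_one (HahnSeries.C a), ← tdx_smul_eq]
      exact Submodule.smul_mem _ _ (one_mem_tdxM F₀ k)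
    · exact ⟨_, tdxEmb_mem_tdxM F₀ k ⟨f, hf⟩, 1, one_mem_tdxM F₀ k, one_ne_zero, mul_one _⟩
  | one => exact ⟨1, one_mem_tdxM F₀ k, 1, one_mem_tdxM F₀ k, one_ne_zero, mul_one _⟩
  | add x y _ _ hx hy =>
    obtain ⟨a, ha, b, hb, hb0, hab⟩ := hx
    obtain ⟨a', ha', b', hb', hb0', hab'⟩ := hy
    refine ⟨a * b' + a' * b, add_mem (mul_mem_tdxM F₀ k ha hb') (mul_mem_tdxM F₀ k ha' hb),
      b * b', mul_mem_tdxM F₀ k hb hb', mul_ne_zero hb0 hb0', ?_⟩
    rw [← hab, ← hab']
    ring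
  | neg x _ hx =>
    obtain ⟨a, ha, b, hb, hb0, hab⟩ := hx
    exact ⟨-a, neg_mem ha, b, hb, hb0, by rw [neg_mul, hab]⟩
  | inv x _ hx =>
    obtain ⟨a, ha, b, hb, hb0, hab⟩ := hx
    by_cases hx0 : x = 0
    · refine ⟨0, zero_mem _, 1, one_mem_tdxM F₀ k, one_ne_zero, ?_⟩
      rw [hx0, inv_zero, zero_mul]
    · have ha0 : a ≠ 0 := by
        rw [← hab]
        exact mul_ne_zero hx0 hb0
      refine ⟨b, hb, a, ha, ha0, ?_⟩
      rw [← hab, ← mul_assoc, inv_mul_cancel₀ hx0, one_mul]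
  | mul x y _ _ hx hy =>
    obtain ⟨a, ha, b, hb, hb0, hab⟩ := hx
    obtain ⟨a', ha', b', hb', hb0', hab'⟩ := hy
    refine ⟨a * a', mul_mem_tdxM F₀ k ha ha', b * b', mul_mem_tdxM F₀ k hb hb',
      mul_ne_zero hb0 hb0', ?_⟩
    rw [← hab, ← hab']
    ring

/-- the span lies in the base change -/
theorem tdxLin_mem (w : TdxI F₀ →₀ k) : tdxLin F₀ k w ∈ laurentBaseChange k F₀ := by
  rw [tdxLin_apply]
  refine Finset.sum_induction _ (· ∈ laurentBaseChange k F₀) (fun _ _ => add_mem) (zero_mem _) ?_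
  intro i _
  show w i • tdxEmb k (tdxE F₀ i) ∈ laurentBaseChange k F₀
  rw [tdx_smul_eq, ← tdx_algebraMap_eq]
  exact mul_mem ((laurentBaseChange k F₀).algebraMap_mem _)
    (coeffEmb_mem_laurentBaseChange k (tdxB F₀ i).2)

theorem tdx_mem_of_frac {x : LaurentSeries k} {c d : TdxI F₀ →₀ k} (hd : d ≠ 0)
    (h : x * tdxLin F₀ k d = tdxLin F₀ k c) : x ∈ laurentBaseChange k F₀ := by
  have h0 := tdxLin_ne_zero F₀ k hd
  have : x = tdxLin F₀ k c / tdxLin F₀ k d := by
    rw [eq_div_iff h0, h]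
  rw [this]
  exact div_mem (tdxLin_mem F₀ k c) (tdxLin_mem F₀ k d)

end Field

/-! ### Functoriality of the base change and descent of membership -/

section Descent

variable {k k' : Type*} [Field k] [Algebra ℚ k] [Field k'] [Algebra ℚ k'] (j : k →+* k')

theorem tdx_coeffMap_injective : Function.Injective (coeffMap j) := by
  intro s t h
  refine HahnSeries.ext (funext fun n => ?_)
  have := congrArg (fun x : LaurentSeries k' => x.coeff n) h
  simp only [coeffMap_coeff] at this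
  exact j.injective this

theorem tdx_coeffMap_algebraMap (a : k) :
    coeffMap j (algebraMap k (LaurentSeries k) a) = algebraMap k' (LaurentSeries k') (j a) := by
  rw [algebraMap_laurentSeries_eq_single, algebraMap_laurentSeries_eq_single, coeffMap_single]

/-- base change is functorial in the coefficient field -/
theorem tdx_coeffMap_mem {x : LaurentSeries k} (hx : x ∈ laurentBaseChange k F₀) :
    coeffMap j x ∈ laurentBaseChange k' F₀ := by
  rw [mem_laurentBaseChange_iff] at hx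
  induction hx using Subfield.closure_induction with
  | mem y hy =>
      rcases hy with ⟨a, rfl⟩ | ⟨z, hz, rfl⟩
      · rw [tdx_coeffMap_algebraMap]
        exact (laurentBaseChange k' F₀).algebraMap_mem _
      · have : coeffMap j (coeffEmb k z) = coeffEmb k' z := tdx_coeffMap_emb j z
        rw [this]
        exact coeffEmb_mem_laurentBaseChange k' hz
  | one => simp
  | add x y _ _ hx hy => simpa using add_mem hx hy
  | neg x _ hx => simpa using neg_mem hx
  | inv x _ hx => simpa using inv_mem hx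
  | mul x y _ _ hx hy => simpa using mul_mem hx hy

/-- **membership descends**: a Laurent series over `k` whose image over `k'` lies in the base change
of `F₀` to `k'` lies in the base change of `F₀` to `k` -/
theorem tdx_mem_of_coeffMap_mem {t : LaurentSeries k}
    (h : coeffMap j t ∈ laurentBaseChange k' F₀) : t ∈ laurentBaseChange k F₀ := by
  obtain ⟨c, d, hd, hcd⟩ := tdx_exists_frac F₀ k' h
  let _ : Algebra k k' := j.toAlgebra
  have hjalg : ∀ a : k, algebraMap k k' a = j a := fun _ => rfl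
  obtain ⟨i0, hi0⟩ : ∃ i, d i ≠ 0 := by
    by_contra hcon
    push Not at hcon
    exact hd (Finsupp.ext hcon)
  obtain ⟨ℓ, hℓ⟩ : ∃ ℓ : Module.Dual k k', ℓ (d i0) ≠ 0 := by
    by_contra hcon
    push Not at hcon
    exact hi0 ((Module.forall_dual_apply_eq_zero_iff k (d i0)).mp hcon)
  have hℓq : ∀ (r : k') (q : ℚ), ℓ (r * algebraMap ℚ k' q) = ℓ r * algebraMap ℚ k q := by
    intro r q
    have h1 : algebraMap ℚ k' q = j (algebraMap ℚ k q) := by
      rw [← RingHom.comp_apply, RingHom.ext_rat (j.comp (algebraMap ℚ k)) (algebraMap ℚ k')]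
    rw [h1, mul_comm r, ← hjalg, ← Algebra.smul_def, map_smul, smul_eq_mul, mul_comm]
  set c' : TdxI F₀ →₀ k := c.mapRange (ℓ : k' →+ k) (map_zero _) with hc'
  set d' : TdxI F₀ →₀ k := d.mapRange (ℓ : k' →+ k) (map_zero _) with hd'
  have hd'0 : d' ≠ 0 := by
    intro h0
    have := DFunLike.congr_fun h0 i0
    rw [hd', Finsupp.mapRange_apply, Finsupp.zero_apply] at this
    exact hℓ this
  refine tdx_mem_of_frac F₀ k hd'0 (c := c') ?_
  ext n
  rw [← tdxLin_coeff_map F₀ (ℓ : k' →+ k) hℓq c n, ← hcd]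
  -- coefficient of the product
  have hsupp : (coeffMap j t).support ⊆ t.support := by
    intro m hm
    rw [HahnSeries.mem_support] at hm ⊢
    intro h0
    apply hm
    rw [coeffMap_coeff, h0, map_zero]
  have hsupp' : (tdxLin F₀ k d').support ⊆ (tdxLin F₀ k' d).support := by
    intro m hm
    rw [HahnSeries.mem_support] at hm ⊢
    intro h0
    apply hm
    rw [← tdxLin_coeff_map F₀ (ℓ : k' →+ k) hℓq d m, h0]
    exact map_zero _
  rw [HahnSeries.coeff_mul_right' (tdxLin F₀ k' d).isPWO_support hsupp',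
    HahnSeries.coeff_mul_left' t.isPWO_support hsupp]
  show _ = (ℓ : k' →+ k) _
  rw [map_sum]
  refine Finset.sum_congr rfl fun ij _ => ?_
  show t.coeff ij.1 * (tdxLin F₀ k d').coeff ij.2
    = ℓ ((coeffMap j t).coeff ij.1 * (tdxLin F₀ k' d).coeff ij.2)
  rw [← tdxLin_coeff_map F₀ (ℓ : k' →+ k) hℓq d ij.2, coeffMap_coeff, ← hjalg, ← Algebra.smul_def,
    map_smul, smul_eq_mul]
  rfl

end Descent

end Fermat.Agent.T1
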