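/-
T1-D (descent ℂ → ℚ̄, part 2): `m`-th powers descend.  For `k ⊂ k'` fields of characteristic zero,
`k` algebraically closed: an element of `laurentBaseChange k F₀` which becomes an `m`-th power in
`laurentBaseChange k' F₀` is an `m`-th power.
-/
import Mathlib
import Fermat.Agent.Lib.T1.Desc.Basic

set_option autoImplicit false
set_option linter.unusedSectionVars false

open HahnSeries ModularCurve

noncomputable section

namespace Fermat.Agent.T1

section Order

variable {k k' : Type*} [Field k] [Field k'] (j : k →+* k')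

theorem tdx_coeffMap_eq_zero_iff {y : LaurentSeries k} : coeffMap j y = 0 ↔ y = 0 := by
  constructor
  · intro h
    refine HahnSeries.ext (funext fun n => ?_)
    have := congrArg (fun x : LaurentSeries k' => x.coeff n) h
    simp only [coeffMap_coeff, HahnSeries.coeff_zero] at this
    exact (map_eq_zero j).mp this
  · rintro rfl
    exact map_zero _

/-- an injective coefficient map preserves the order -/
theorem tdx_order_coeffMap (y : LaurentSeries k) : (coeffMap j y).order = y.order := by
  by_cases hy : y = 0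
  · rw [hy, map_zero, HahnSeries.order_zero, HahnSeries.order_zero]
  · have hy' : coeffMap j y ≠ 0 := fun h => hy ((tdx_coeffMap_eq_zero_iff j).mp h)
    apply le_antisymm
    · apply HahnSeries.order_le_of_coeff_ne_zero
      rw [coeffMap_coeff]
      exact (map_ne_zero j).mpr (fun h0 => hy (HahnSeries.coeff_order_eq_zero.mp h0))
    · apply HahnSeries.order_le_of_coeff_ne_zero
      have : (coeffMap j y).coeff (coeffMap j y).order ≠ 0 :=
        fun h0 => hy' (HahnSeries.coeff_order_eq_zero.mp h0)
      rw [coeffMap_coeff] at this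
      exact (map_ne_zero j).mp this

end Order

section Roots

variable {k : Type*} [Field k] [CharZero k]

/-- `m`-th roots of power series with constant coefficient one (Hensel) -/
theorem tdx_exists_pow_eq_powerSeries (m : ℕ) (hm : m ≠ 0) (u : PowerSeries k)
    (hu : PowerSeries.constantCoeff u = 1) : ∃ v : PowerSeries k, v ^ m = u := by
  have : HenselianRing (PowerSeries k) (Ideal.span {PowerSeries.X}) :=
    IsAdicComplete.henselianRing _ _
  set f : Polynomial (PowerSeries k) := Polynomial.X ^ m - Polynomial.C u with hf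
  have hmonic : f.Monic := Polynomial.monic_X_pow_sub_C u hm
  have h1 : f.eval 1 ∈ Ideal.span {(PowerSeries.X : PowerSeries k)} := by
    rw [hf, Polynomial.eval_sub, Polynomial.eval_pow, Polynomial.eval_X, Polynomial.eval_C, one_pow,
      Ideal.mem_span_singleton, PowerSeries.X_dvd_iff, map_sub, map_one, hu, sub_self]
  have h2 : IsUnit (Ideal.Quotient.mk (Ideal.span {(PowerSeries.X : PowerSeries k)})
      (f.derivative.eval 1)) := by
    apply IsUnit.map
    rw [hf, Polynomial.derivative_sub, Polynomial.derivative_C, sub_zero,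
      Polynomial.derivative_X_pow, Polynomial.eval_mul, Polynomial.eval_pow, Polynomial.eval_X,
      one_pow, mul_one, Polynomial.eval_C,
      PowerSeries.isUnit_iff_constantCoeff, map_natCast]
    exact isUnit_iff_ne_zero.mpr (Nat.cast_ne_zero.mpr hm)
  obtain ⟨a, ha, -⟩ := HenselianRing.is_henselian f hmonic 1 h1 h2
  refine ⟨a, ?_⟩
  rw [Polynomial.IsRoot, hf, Polynomial.eval_sub, Polynomial.eval_pow, Polynomial.eval_X,
    Polynomial.eval_C, sub_eq_zero] at ha
  exact ha

variable [IsAlgClosed k]

/-- `m`-th roots of Laurent series whose order is divisible by `m` -/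
theorem tdx_exists_pow_eq (m : ℕ) (hm : m ≠ 0) (y : LaurentSeries k) (hy : y ≠ 0) (n : ℤ)
    (hn : y.order = m * n) : ∃ t : LaurentSeries k, t ^ m = y := by
  set P := LaurentSeries.powerSeriesPart y with hP
  set c : k := PowerSeries.constantCoeff P with hc
  have hc0 : c ≠ 0 := by
    rw [hc, ← PowerSeries.coeff_zero_eq_constantCoeff_apply, hP,
      LaurentSeries.powerSeriesPart_coeff]
    simp only [Nat.cast_zero, add_zero]
    exact fun h0 => hy (HahnSeries.coeff_order_eq_zero.mp h0)
  obtain ⟨c₀, hc₀⟩ := IsAlgClosed.exists_pow_nat_eq c (Nat.pos_of_ne_zero hm)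
  obtain ⟨v, hv⟩ := tdx_exists_pow_eq_powerSeries m hm (PowerSeries.C c⁻¹ * P) (by
    rw [map_mul, PowerSeries.constantCoeff_C, ← hc, inv_mul_cancel₀ hc0])
  refine ⟨HahnSeries.single n (1 : k) * HahnSeries.ofPowerSeries ℤ k (PowerSeries.C c₀ * v), ?_⟩
  have e1 : (PowerSeries.C c₀ * v) ^ m = P := by
    rw [mul_pow, hv, ← map_pow, hc₀, ← mul_assoc, ← map_mul, mul_inv_cancel₀ hc0]
    rw [(PowerSeries.C (R := k)).map_one, one_mul]
  have e2 : (HahnSeries.single n (1 : k)) ^ m = HahnSeries.single y.order (1 : k) := by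
    rw [HahnSeries.single_pow, one_pow, nsmul_eq_mul, ← hn]
  rw [mul_pow, e2, ← map_pow, e1]
  exact LaurentSeries.single_order_mul_powerSeriesPart y

/-- the `m`-th roots of unity in `k'((q))` are constants from `k` -/
theorem tdx_pow_eq_one {k' : Type*} [Field k'] (j : k →+* k') (m : ℕ) (hm : m ≠ 0)
    (ζ : LaurentSeries k') (hζ : ζ ^ m = 1) :
    ∃ a : k, a ^ m = 1 ∧ ζ = HahnSeries.C (j a) := by
  have : NeZero (m : k) := ⟨Nat.cast_ne_zero.mpr hm⟩
  have : NeZero m := ⟨hm⟩
  obtain ⟨ω, hω⟩ := HasEnoughRootsOfUnity.exists_primitiveRoot k m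
  set φ : k →+* LaurentSeries k' := (HahnSeries.C : k' →+* LaurentSeries k').comp j with hφ
  have hφinj : Function.Injective φ := φ.injective
  have hω' : IsPrimitiveRoot (φ ω) m := hω.map_of_injective hφinj
  obtain ⟨i, -, hi⟩ := hω'.eq_pow_of_pow_eq_one hζ
  refine ⟨ω ^ i, ?_, ?_⟩
  · rw [← pow_mul, mul_comm, pow_mul, hω.pow_eq_one, one_pow]
  · rw [← hi, ← map_pow]
    rfl

end Roots

section PowDesc

variable {k k' : Type*} [Field k] [Algebra ℚ k] [Field k'] [Algebra ℚ k'] [IsAlgClosed k]
  (F₀ : IntermediateField ℚ (LaurentSeries ℚ))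

/-- **`m`-th powers descend** -/
theorem tdx_pow_desc (j : k →+* k') (m : ℕ) (hm : m ≠ 0) {y : LaurentSeries k}
    {z : LaurentSeries k'} (hz : z ∈ laurentBaseChange k' F₀) (h : coeffMap j y = z ^ m) :
    ∃ t ∈ laurentBaseChange k F₀, y = t ^ m := by
  have : CharZero k := algebraRat.charZero k
  by_cases hy : y = 0
  · exact ⟨0, zero_mem _, by rw [hy, zero_pow hm]⟩
  have hz0 : z ≠ 0 := by
    rintro rfl
    rw [zero_pow hm] at h
    exact hy ((tdx_coeffMap_eq_zero_iff j).mp h)
  have hord : y.order = m * z.order := by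
    rw [← tdx_order_coeffMap j y, h, HahnSeries.order_pow, nsmul_eq_mul]
  obtain ⟨t, ht⟩ := tdx_exists_pow_eq m hm y hy z.order hord
  have h1 : (coeffMap j t / z) ^ m = 1 := by
    rw [div_pow, ← map_pow, ht, h, div_self (pow_ne_zero m hz0)]
  obtain ⟨a, -, ha⟩ := tdx_pow_eq_one j m hm _ h1
  have h2 : coeffMap j t = HahnSeries.C (j a) * z := by
    rw [← ha, div_mul_cancel₀ _ hz0]
  have h3 : coeffMap j t ∈ laurentBaseChange k' F₀ := by
    rw [h2, ← tdx_algebraMap_eq]
    exact mul_mem ((laurentBaseChange k' F₀).algebraMap_mem _) hz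
  exact ⟨t, tdx_mem_of_coeffMap_mem F₀ j h3, ht.symm⟩

end PowDesc

end Fermat.Agent.T1
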